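/-
CELL-H (S19/S32 design, board 4525) node N0 HOPF-PACK, part 1 (helper5): stabiliser-free Galois
descent of linear independence.

`G` a group acting on a field `K`, `act : G → M → M` with every `act σ` surjective, `f i : M → K`
functions with `f i (act σ x) = σ • f i x` ("equivariant").  If the `f i` admit no non-trivial linear
relation with `G`-FIXED coefficients, they admit no non-trivial relation with coefficients in `K`
(`eq_zero_of_sum_mul_eq_zero`).  No continuity / open-stabiliser hypothesis.  Mathlib only.
-/
import Mathlib

set_option autoImplicit false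

namespace Fermat.Agent.GH.N0

open Finset

section Descent

variable {G K M ι : Type*} [Group G] [Field K] [MulSemiringAction G K]

/-- **Descent of linear independence.** -/
theorem eq_zero_of_sum_mul_eq_zero (act : G → M → M) (hsurj : ∀ σ, Function.Surjective (act σ))
    (f : ι → M → K) (heq : ∀ i σ x, f i (act σ x) = σ • f i x)
    (hind : ∀ (s : Finset ι) (c : ι → K), (∀ i ∈ s, ∀ σ : G, σ • c i = c i) →
      (∀ x, ∑ i ∈ s, c i * f i x = 0) → ∀ i ∈ s, c i = 0)
    (s : Finset ι) (c : ι → K) (h : ∀ x, ∑ i ∈ s, c i * f i x = 0) : ∀ i ∈ s, c i = 0 := by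
  classical
  induction s using Finset.strongInduction generalizing c with
  | H s ih =>
    by_contra hne
    push Not at hne
    obtain ⟨i₀, hi₀, hci₀⟩ := hne
    -- normalise
    set c' : ι → K := fun i => c i / c i₀ with hc'
    have hc'0 : c' i₀ = 1 := div_self hci₀
    have h' : ∀ x, ∑ i ∈ s, c' i * f i x = 0 := by
      intro x
      have : ∑ i ∈ s, c' i * f i x = (∑ i ∈ s, c i * f i x) / c i₀ := by
        rw [Finset.sum_div]
        refine Finset.sum_congr rfl fun i _ => ?_
        rw [hc']
        ring
      rw [this, h x, zero_div]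
    -- the conjugate relation
    have hconj : ∀ (σ : G) (y : M), ∑ i ∈ s, (σ • c' i) * f i y = 0 := by
      intro σ y
      obtain ⟨x, rfl⟩ := hsurj σ y
      have h1 : σ • (∑ i ∈ s, c' i * f i x) = ∑ i ∈ s, (σ • c' i) * f i (act σ x) := by
        rw [Finset.smul_sum]
        refine Finset.sum_congr rfl fun i _ => ?_
        rw [smul_mul', heq]
      rw [← h1, h' x, smul_zero]
    -- all `c' i` are fixed
    have hfixed : ∀ i ∈ s, ∀ σ : G, σ • c' i = c' i := by
      intro i hi σ
      by_cases hii : i = i₀
      · subst hii
        rw [hc'0, smul_one]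
      · have hrel : ∀ x, ∑ j ∈ s.erase i₀, (σ • c' j - c' j) * f j x = 0 := by
          intro x
          have h2 : ∑ j ∈ s, (σ • c' j - c' j) * f j x = 0 := by
            have : ∑ j ∈ s, (σ • c' j - c' j) * f j x
                = ∑ j ∈ s, (σ • c' j) * f j x - ∑ j ∈ s, c' j * f j x := by
              rw [← Finset.sum_sub_distrib]
              refine Finset.sum_congr rfl fun j _ => ?_
              ring
            rw [this, hconj σ x, h' x, sub_zero]
          rw [← Finset.add_sum_erase s _ hi₀] at h2
          rw [hc'0, smul_one, sub_self, zero_mul, zero_add] at h2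
          exact h2
        have := ih (s.erase i₀) (Finset.erase_ssubset hi₀) (fun j => σ • c' j - c' j) hrel i
          (Finset.mem_erase.mpr ⟨hii, hi⟩)
        exact sub_eq_zero.mp this
    have := hind s c' hfixed h' i₀ hi₀
    rw [hc'0] at this
    exact one_ne_zero this

end Descent

end Fermat.Agent.GH.N0
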