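/-
CELL-H node N0 HOPF-PACK, part 2 (helper5): the "box product" of two function models and its
injectivity.  `α : A →ₐ[R] (X → K)`, `β : B →ₐ[R] (Y → K)` give
`boxProd α β : A ⊗[R] B →ₐ[R] (X × Y → K)`, `a ⊗ b ↦ ((x, y) ↦ α a x * β b y)`.  If `A` has an
`R`-basis whose image under `α` is `K`-linearly independent and `β` is injective, `boxProd α β` is
injective.  Mathlib only.
-/
import Mathlib

set_option autoImplicit false

open scoped TensorProduct

namespace Fermat.Agent.GH.N0

section Pull

variable (R K : Type*) [CommSemiring R] [CommSemiring K] [Algebra R K]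

/-- Precomposition with a map of index types, as an algebra homomorphism of function algebras. -/
def pull {X Y : Type*} (φ : Y → X) : (X → K) →ₐ[R] (Y → K) :=
  AlgHom.pi fun y => Pi.evalAlgHom R (fun _ : X => K) (φ y)

@[simp]
theorem pull_apply {X Y : Type*} (φ : Y → X) (f : X → K) (y : Y) : pull R K φ f y = f (φ y) := rfl

end Pull

section BoxProd

variable {R K : Type*} [CommRing R] [Field K] [Algebra R K]
variable {A B : Type*} [CommRing A] [Algebra R A] [CommRing B] [Algebra R B]
variable {X Y : Type*}

/-- `a ⊗ b ↦ ((x, y) ↦ α a x * β b y)`. -/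
noncomputable def boxProd (α : A →ₐ[R] (X → K)) (β : B →ₐ[R] (Y → K)) :
    A ⊗[R] B →ₐ[R] (X × Y → K) :=
  Algebra.TensorProduct.productMap ((pull R K Prod.fst).comp α) ((pull R K Prod.snd).comp β)

@[simp]
theorem boxProd_tmul (α : A →ₐ[R] (X → K)) (β : B →ₐ[R] (Y → K)) (a : A) (b : B) (z : X × Y) :
    boxProd α β (a ⊗ₜ b) z = α a z.1 * β b z.2 := by
  simp [boxProd]

/-- **Injectivity of the box product.** -/
theorem boxProd_injective {ι : Type*} (bA : Module.Basis ι R A) (α : A →ₐ[R] (X → K))
    (hK : LinearIndependent K (fun i => α (bA i))) (β : B →ₐ[R] (Y → K))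
    (hβ : Function.Injective β) : Function.Injective (boxProd α β) := by
  classical
  rw [injective_iff_map_eq_zero]
  intro t ht
  obtain ⟨c, rfl⟩ := TensorProduct.eq_repr_basis_left bA t
  have hc : c = 0 := by
    ext i
    rw [Finsupp.zero_apply]
    apply hβ
    rw [map_zero]
    funext y
    -- the relation at `y`
    have hrel : ∑ j ∈ c.support, (β (c j) y) • (fun j => α (bA j)) j = 0 := by
      funext x
      have h1 := congrFun ht (x, y)
      rw [Finsupp.sum, map_sum] at h1
      simp only [Finset.sum_apply, boxProd_tmul, Pi.zero_apply] at h1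
      rw [Finset.sum_apply]
      simp only [Pi.smul_apply, smul_eq_mul, Pi.zero_apply]
      rw [← h1]
      refine Finset.sum_congr rfl fun j _ => ?_
      ring
    by_cases hi : i ∈ c.support
    · exact linearIndependent_iff'.mp hK c.support (fun j => β (c j) y) hrel i hi
    · rw [Finsupp.notMem_support_iff] at hi
      rw [hi, map_zero]
  rw [hc]
  simp

end BoxProd

end Fermat.Agent.GH.N0
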