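/-
CELL-H node N0 HOPF-PACK, part 3 (helper5): **a Δ-stable function order is a Hopf algebra whose
points are the group.**

`M` an additive commutative group, `K` a field, `A` a commutative `R`-algebra with an `R`-algebra map
`ev : A → (M → K)` ("function model") and an `R`-basis `bA` whose image is `K`-linearly independent.
If the pull-backs of `ev a` along `+ : M × M → M`, `0`, `- : M → M` stay in the model (`delta`, `zero`,
`neg`), then `A` is a cocommutative Hopf algebra over `R` (`hopfAlgebra`), and if moreover `M` is finite
and `ev` separates the points of `M`, the `R`-algebra maps `A → K` are exactly the evaluations at the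
points of `M`, convolution being addition (`pointEquiv`).  Mathlib only.
-/
import Mathlib
import Fermat.Agent.GH.N0.BoxProd

set_option autoImplicit false
set_option linter.unusedSectionVars false
set_option linter.unusedSimpArgs false

open scoped TensorProduct

namespace Fermat.Agent.GH.N0

section Main

variable {R K : Type*} [CommRing R] [Field K] [Algebra R K]
variable {A : Type*} [CommRing A] [Algebra R A]
variable {M : Type*} [AddCommGroup M]
variable {ι : Type*}

/-- The hypotheses making `(A, ev)` a function model of a Hopf order on the group `M`. -/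
structure IsGroupOrder (ev : A →ₐ[R] (M → K)) (bA : Module.Basis ι R A) : Prop where
  injRK : Function.Injective (algebraMap R K)
  indep : LinearIndependent K (fun i => ev (bA i))
  delta : ∀ a : A, ∃ t : A ⊗[R] A, ∀ x y, boxProd ev ev t (x, y) = ev a (x + y)
  zero : ∀ a : A, ∃ r : R, algebraMap R K r = ev a 0
  neg : ∀ a : A, ∃ a' : A, ∀ x, ev a' x = ev a (-x)

variable {ev : A →ₐ[R] (M → K)} {bA : Module.Basis ι R A}

namespace IsGroupOrder

variable (h : IsGroupOrder ev bA)
include h

/-- `ev` is injective. -/
theorem ev_injective : Function.Injective ev := by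
  classical
  rw [injective_iff_map_eq_zero]
  intro a ha
  have h1 : a = ∑ i ∈ (bA.repr a).support, (bA.repr a i) • bA i := by
    conv_lhs => rw [← bA.linearCombination_repr a]
    rfl
  have h2 : ∑ i ∈ (bA.repr a).support, (algebraMap R K (bA.repr a i)) • (fun i => ev (bA i)) i
      = 0 := by
    rw [← ha]
    conv_rhs => rw [h1]
    rw [map_sum]
    refine Finset.sum_congr rfl fun i _ => ?_
    rw [map_smul]
    funext x
    simp [Algebra.smul_def]
  have h3 := linearIndependent_iff'.mp h.indep _ _ h2
  have h4 : bA.repr a = 0 := by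
    ext i
    by_cases hi : i ∈ (bA.repr a).support
    · exact h.injRK (by rw [h3 i hi, Finsupp.zero_apply, map_zero])
    · rw [Finsupp.notMem_support_iff] at hi
      rw [hi]
      rfl
  rw [← bA.linearCombination_repr a, h4, map_zero]

/-- `Φ₂ : A ⊗ A → (M × M → K)` is injective. -/
theorem boxProd_ev_ev_injective : Function.Injective (boxProd ev ev) :=
  boxProd_injective bA ev h.indep ev h.ev_injective

/-- `Φ₃ : A ⊗ (A ⊗ A) → (M × (M × M) → K)` is injective. -/
theorem boxProd_ev_boxProd_injective : Function.Injective (boxProd ev (boxProd ev ev)) :=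
  boxProd_injective bA ev h.indep (boxProd ev ev) h.boxProd_ev_ev_injective

/-! ### The structure maps -/

/-- pull-back along the addition. -/
noncomputable def addPull (ev : A →ₐ[R] (M → K)) : A →ₐ[R] (M × M → K) :=
  (pull R K (fun z : M × M => z.1 + z.2)).comp ev

theorem addPull_mem_range (a : A) : addPull ev a ∈ (boxProd ev ev).range := by
  obtain ⟨t, ht⟩ := h.delta a
  refine ⟨t, ?_⟩
  funext z
  exact ht z.1 z.2

/-- **The comultiplication.** -/
noncomputable def comulAlg : A →ₐ[R] A ⊗[R] A :=
  ((AlgEquiv.ofInjective (boxProd ev ev) h.boxProd_ev_ev_injective).symm : _ →ₐ[R] _).comp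
    ((addPull ev).codRestrict (boxProd ev ev).range h.addPull_mem_range)

theorem boxProd_comulAlg (a : A) (x y : M) :
    boxProd ev ev (h.comulAlg a) (x, y) = ev a (x + y) := by
  have h1 : boxProd ev ev (h.comulAlg a) = addPull ev a := by
    unfold comulAlg
    rw [AlgHom.comp_apply]
    have := (AlgEquiv.ofInjective (boxProd ev ev) h.boxProd_ev_ev_injective).apply_symm_apply
      ((addPull ev).codRestrict (boxProd ev ev).range h.addPull_mem_range a)
    exact congrArg Subtype.val this
  rw [h1]
  rfl

/-- evaluation at `0`. -/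
noncomputable def evZero (ev : A →ₐ[R] (M → K)) : A →ₐ[R] K :=
  (Pi.evalAlgHom R (fun _ : M => K) 0).comp ev

theorem evZero_mem_range (a : A) : evZero ev a ∈ (Algebra.ofId R K).range := by
  obtain ⟨r, hr⟩ := h.zero a
  exact ⟨r, hr⟩

/-- **The counit.** -/
noncomputable def counitAlg : A →ₐ[R] R :=
  ((AlgEquiv.ofInjective (Algebra.ofId R K) h.injRK).symm : _ →ₐ[R] _).comp
    ((evZero ev).codRestrict (Algebra.ofId R K).range h.evZero_mem_range)

theorem algebraMap_counitAlg (a : A) : algebraMap R K (h.counitAlg a) = ev a 0 := by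
  have h1 : Algebra.ofId R K (h.counitAlg a) = evZero ev a := by
    unfold counitAlg
    rw [AlgHom.comp_apply]
    have := (AlgEquiv.ofInjective (Algebra.ofId R K) h.injRK).apply_symm_apply
      ((evZero ev).codRestrict (Algebra.ofId R K).range h.evZero_mem_range a)
    exact congrArg Subtype.val this
  exact h1

/-- pull-back along the negation. -/
noncomputable def negPull (ev : A →ₐ[R] (M → K)) : A →ₐ[R] (M → K) :=
  (pull R K (fun x : M => -x)).comp ev

theorem negPull_mem_range (a : A) : negPull ev a ∈ ev.range := by
  obtain ⟨a', ha'⟩ := h.neg a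
  exact ⟨a', funext ha'⟩

/-- **The antipode.** -/
noncomputable def antipodeAlg : A →ₐ[R] A :=
  ((AlgEquiv.ofInjective ev h.ev_injective).symm : _ →ₐ[R] _).comp
    ((negPull ev).codRestrict ev.range h.negPull_mem_range)

theorem ev_antipodeAlg (a : A) (x : M) : ev (h.antipodeAlg a) x = ev a (-x) := by
  have h1 : ev (h.antipodeAlg a) = negPull ev a := by
    unfold antipodeAlg
    rw [AlgHom.comp_apply]
    have := (AlgEquiv.ofInjective ev h.ev_injective).apply_symm_apply
      ((negPull ev).codRestrict ev.range h.negPull_mem_range a)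
    exact congrArg Subtype.val this
  rw [h1]
  rfl

end IsGroupOrder

/-! ### Evaluation lemmas -/

section Eval

variable (ev)

theorem boxProd₃_assoc_tmul (s : A ⊗[R] A) (b : A) (x y z : M) :
    boxProd ev (boxProd ev ev) (Algebra.TensorProduct.assoc R R R A A A (s ⊗ₜ b)) (x, (y, z))
      = boxProd ev ev s (x, y) * ev b z := by
  induction s using TensorProduct.induction_on with
  | zero => simp
  | tmul u v =>
    rw [Algebra.TensorProduct.assoc_tmul, boxProd_tmul, boxProd_tmul, boxProd_tmul]
    ring
  | add s₁ s₂ h₁ h₂ =>
    rw [TensorProduct.add_tmul, map_add, map_add, map_add, Pi.add_apply, Pi.add_apply, h₁, h₂,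
      add_mul]

end Eval

namespace IsGroupOrder

variable (h : IsGroupOrder ev bA)
include h

theorem boxProd₃_assoc_map_comul (t : A ⊗[R] A) (x y z : M) :
    boxProd ev (boxProd ev ev) (Algebra.TensorProduct.assoc R R R A A A
      (Algebra.TensorProduct.map h.comulAlg (AlgHom.id R A) t)) (x, (y, z))
      = boxProd ev ev t (x + y, z) := by
  induction t using TensorProduct.induction_on with
  | zero => simp
  | tmul a b =>
    rw [Algebra.TensorProduct.map_tmul, AlgHom.id_apply, boxProd₃_assoc_tmul, h.boxProd_comulAlg,
      boxProd_tmul]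
  | add s₁ s₂ h₁ h₂ =>
    rw [map_add, map_add, map_add, map_add, Pi.add_apply, Pi.add_apply, h₁, h₂]

theorem boxProd₃_map_id_comul (t : A ⊗[R] A) (x y z : M) :
    boxProd ev (boxProd ev ev)
      (Algebra.TensorProduct.map (AlgHom.id R A) h.comulAlg t) (x, (y, z))
      = boxProd ev ev t (x, y + z) := by
  induction t using TensorProduct.induction_on with
  | zero => simp
  | tmul a b =>
    rw [Algebra.TensorProduct.map_tmul, AlgHom.id_apply, boxProd_tmul, h.boxProd_comulAlg,
      boxProd_tmul]
  | add s₁ s₂ h₁ h₂ =>
    rw [map_add, map_add, map_add, Pi.add_apply, Pi.add_apply, h₁, h₂]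

theorem ev_lid_map_counit (t : A ⊗[R] A) (y : M) :
    ev (Algebra.TensorProduct.lid R A
      (Algebra.TensorProduct.map h.counitAlg (AlgHom.id R A) t)) y = boxProd ev ev t (0, y) := by
  induction t using TensorProduct.induction_on with
  | zero => simp
  | tmul a b =>
    rw [Algebra.TensorProduct.map_tmul, AlgHom.id_apply, Algebra.TensorProduct.lid_tmul,
      boxProd_tmul, map_smul, Pi.smul_apply, Algebra.smul_def, h.algebraMap_counitAlg]
  | add s₁ s₂ h₁ h₂ =>
    rw [map_add, map_add, map_add, map_add, Pi.add_apply, Pi.add_apply, h₁, h₂]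

theorem ev_rid_map_counit (t : A ⊗[R] A) (x : M) :
    ev (Algebra.TensorProduct.rid R R A
      (Algebra.TensorProduct.map (AlgHom.id R A) h.counitAlg t)) x = boxProd ev ev t (x, 0) := by
  induction t using TensorProduct.induction_on with
  | zero => simp
  | tmul a b =>
    rw [Algebra.TensorProduct.map_tmul, AlgHom.id_apply, Algebra.TensorProduct.rid_tmul,
      boxProd_tmul, map_smul, Pi.smul_apply, Algebra.smul_def, h.algebraMap_counitAlg, mul_comm]
  | add s₁ s₂ h₁ h₂ =>
    rw [map_add, map_add, map_add, map_add, Pi.add_apply, Pi.add_apply, h₁, h₂]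

/-- **The bialgebra structure.** -/
@[reducible] noncomputable def bialgebra : Bialgebra R A :=
  Bialgebra.ofAlgHom h.comulAlg h.counitAlg
    (by
      apply AlgHom.ext
      intro a
      apply h.boxProd_ev_boxProd_injective
      funext ⟨x, y, z⟩
      change boxProd ev (boxProd ev ev) (Algebra.TensorProduct.assoc R R R A A A
        (Algebra.TensorProduct.map h.comulAlg (AlgHom.id R A) (h.comulAlg a))) (x, (y, z))
        = boxProd ev (boxProd ev ev)
          (Algebra.TensorProduct.map (AlgHom.id R A) h.comulAlg (h.comulAlg a)) (x, (y, z))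
      rw [h.boxProd₃_assoc_map_comul, h.boxProd₃_map_id_comul, h.boxProd_comulAlg,
        h.boxProd_comulAlg, add_assoc])
    (by
      apply AlgHom.ext
      intro a
      apply (Algebra.TensorProduct.lid R A).injective
      have e1 : (Algebra.TensorProduct.lid R A)
          (((Algebra.TensorProduct.lid R A).symm : A →ₐ[R] R ⊗[R] A) a) = a :=
        (Algebra.TensorProduct.lid R A).apply_symm_apply a
      rw [e1]
      apply h.ev_injective
      funext y
      rw [AlgHom.comp_apply, h.ev_lid_map_counit, h.boxProd_comulAlg, zero_add])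
    (by
      apply AlgHom.ext
      intro a
      apply (Algebra.TensorProduct.rid R R A).injective
      have e1 : (Algebra.TensorProduct.rid R R A)
          (((Algebra.TensorProduct.rid R R A).symm : A →ₐ[R] A ⊗[R] R) a) = a :=
        (Algebra.TensorProduct.rid R R A).apply_symm_apply a
      rw [e1]
      apply h.ev_injective
      funext x
      rw [AlgHom.comp_apply, h.ev_rid_map_counit, h.boxProd_comulAlg, add_zero])

theorem ev_mul'_rTensor_antipode (t : A ⊗[R] A) (x : M) :
    ev (LinearMap.mul' R A ((h.antipodeAlg.toLinearMap.rTensor A) t)) x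
      = boxProd ev ev t (-x, x) := by
  induction t using TensorProduct.induction_on with
  | zero => simp
  | tmul a b =>
    rw [LinearMap.rTensor_tmul, LinearMap.mul'_apply, AlgHom.toLinearMap_apply, map_mul,
      Pi.mul_apply, h.ev_antipodeAlg, boxProd_tmul]
  | add s₁ s₂ h₁ h₂ =>
    rw [map_add, map_add, map_add, map_add, Pi.add_apply, Pi.add_apply, h₁, h₂]

theorem ev_mul'_lTensor_antipode (t : A ⊗[R] A) (x : M) :
    ev (LinearMap.mul' R A ((h.antipodeAlg.toLinearMap.lTensor A) t)) x
      = boxProd ev ev t (x, -x) := by
  induction t using TensorProduct.induction_on with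
  | zero => simp
  | tmul a b =>
    rw [LinearMap.lTensor_tmul, LinearMap.mul'_apply, AlgHom.toLinearMap_apply, map_mul,
      Pi.mul_apply, h.ev_antipodeAlg, boxProd_tmul]
  | add s₁ s₂ h₁ h₂ =>
    rw [map_add, map_add, map_add, map_add, Pi.add_apply, Pi.add_apply, h₁, h₂]

theorem boxProd_comm (t : A ⊗[R] A) (x y : M) :
    boxProd ev ev (TensorProduct.comm R A A t) (x, y) = boxProd ev ev t (y, x) := by
  induction t using TensorProduct.induction_on with
  | zero => simp
  | tmul a b =>
    rw [TensorProduct.comm_tmul, boxProd_tmul, boxProd_tmul, mul_comm]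
  | add s₁ s₂ h₁ h₂ =>
    rw [map_add, map_add, map_add, Pi.add_apply, Pi.add_apply, h₁, h₂]

/-- **The Hopf algebra structure.** -/
@[reducible] noncomputable def hopfAlgebra : HopfAlgebra R A :=
  letI := h.bialgebra
  { antipode := h.antipodeAlg.toLinearMap
    mul_antipode_rTensor_comul := by
      apply LinearMap.ext
      intro a
      apply h.ev_injective
      funext x
      change ev (LinearMap.mul' R A ((h.antipodeAlg.toLinearMap.rTensor A) (h.comulAlg a))) x
        = ev (algebraMap R A (h.counitAlg a)) x
      rw [h.ev_mul'_rTensor_antipode, h.boxProd_comulAlg, neg_add_cancel, AlgHom.commutes,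
        Pi.algebraMap_apply, h.algebraMap_counitAlg]
    mul_antipode_lTensor_comul := by
      apply LinearMap.ext
      intro a
      apply h.ev_injective
      funext x
      change ev (LinearMap.mul' R A ((h.antipodeAlg.toLinearMap.lTensor A) (h.comulAlg a))) x
        = ev (algebraMap R A (h.counitAlg a)) x
      rw [h.ev_mul'_lTensor_antipode, h.boxProd_comulAlg, add_neg_cancel, AlgHom.commutes,
        Pi.algebraMap_apply, h.algebraMap_counitAlg] }

/-- The Hopf algebra is cocommutative. -/
theorem isCocomm : @Coalgebra.IsCocomm R A _ _ _ h.hopfAlgebra.toCoalgebra := by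
  let := h.hopfAlgebra
  refine ⟨?_⟩
  apply LinearMap.ext
  intro a
  apply h.boxProd_ev_ev_injective
  funext ⟨x, y⟩
  change boxProd ev ev (TensorProduct.comm R A A (h.comulAlg a)) (x, y)
    = boxProd ev ev (h.comulAlg a) (x, y)
  rw [h.boxProd_comm, h.boxProd_comulAlg, h.boxProd_comulAlg, add_comm]

end IsGroupOrder

end Main

end Fermat.Agent.GH.N0
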