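/-
CELL-H node N0 HOPF-PACK, part 4 (helper5): **a Galois-stable, Δ-stable function order over a PID is
a cocommutative Hopf algebra.**

`R` a PID with fraction field `F ⊆ K`, `G` a group acting on the field `K` with fixed field `F`,
`M` a finite commutative group with maps `act σ : M → M` fixing `0`, and `H : Subalgebra R (M → K)`
an `R`-subalgebra of the functions on `M` which is

* equivariant: `f (act σ x) = σ • f x`,
* finitely generated as an `R`-module,
* separating the points of `M`,
* Δ-stable: `f (x + y) = ∑ i, a i x * b i y` with `a i, b i ∈ H`.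

Then `↥H` is free of rank `≤ #M`, carries a cocommutative Hopf algebra structure over `R` whose
comultiplication is the pull-back along `+` (`IsStableOrder.exists_hopfAlgebra`).  Mathlib only.
-/
import Mathlib
import Fermat.Agent.GH.N0.Descent
import Fermat.Agent.GH.N0.HopfOfOrder

set_option autoImplicit false
set_option linter.unusedSectionVars false

open scoped TensorProduct

namespace Fermat.Agent.GH.N0

section EvPt

variable {R K : Type*} [CommRing R] [Field K] [Algebra R K]
variable {A B : Type*} [CommRing A] [Algebra R A] [CommRing B] [Algebra R B]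
variable {X Y : Type*}

/-- evaluation of a function model at a point, as an algebra map to `K`. -/
noncomputable def evPt (α : A →ₐ[R] (X → K)) (x : X) : A →ₐ[R] K :=
  (Pi.evalAlgHom R (fun _ : X => K) x).comp α

@[simp]
theorem evPt_apply (α : A →ₐ[R] (X → K)) (x : X) (a : A) : evPt α x a = α a x := rfl

/-- the box product evaluated at a point is the `lift` of the two point evaluations. -/
theorem boxProd_apply_eq_lift (α : A →ₐ[R] (X → K)) (β : B →ₐ[R] (Y → K)) (t : A ⊗[R] B)
    (x : X) (y : Y) :
    boxProd α β t (x, y)
      = Algebra.TensorProduct.lift (evPt α x) (evPt β y) (fun _ _ => Commute.all _ _) t := by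
  induction t using TensorProduct.induction_on with
  | zero => simp
  | tmul a b => rw [boxProd_tmul, Algebra.TensorProduct.lift_tmul, evPt_apply, evPt_apply]
  | add s₁ s₂ h₁ h₂ => rw [map_add, map_add, Pi.add_apply, h₁, h₂]

end EvPt

/-- `R → Frac R = F → K` is injective. -/
theorem algebraMap_injective_of_tower (R F K : Type*) [CommRing R] [Field F] [Algebra R F]
    [IsFractionRing R F] [Field K] [Algebra F K] [Algebra R K] [IsScalarTower R F K] :
    Function.Injective (algebraMap R K) := by
  rw [IsScalarTower.algebraMap_eq R F K]
  exact (algebraMap F K).injective.comp (IsFractionRing.injective R F)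

section Order

variable {R : Type*} [CommRing R] [IsDomain R] [IsPrincipalIdealRing R]
variable (F : Type*) [Field F] [Algebra R F] [IsFractionRing R F]
variable {K : Type*} [Field K] [Algebra F K] [Algebra R K] [IsScalarTower R F K]
variable {G : Type*} [Group G] [MulSemiringAction G K]
variable {M : Type*} [AddCommGroup M] [Finite M]

/-- The hypotheses on a function order `H ⊆ Map(M, K)`. -/
structure IsStableOrder (act : G → M → M) (H : Subalgebra R (M → K)) : Prop where
  fixed : ∀ c : K, (∀ σ : G, σ • c = c) → c ∈ (algebraMap F K).range
  act_zero : ∀ σ, act σ 0 = 0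
  equivariant : ∀ f ∈ H, ∀ σ x, f (act σ x) = σ • f x
  fg : Module.Finite R H
  sep : ∀ x y : M, x ≠ y → ∃ f ∈ H, f x ≠ f y
  delta : ∀ f ∈ H, ∃ (n : ℕ) (a b : Fin n → H), ∀ x y,
    f (x + y) = ∑ i, (a i : M → K) x * (b i : M → K) y

variable {F}
variable {act : G → M → M} {H : Subalgebra R (M → K)}

namespace IsStableOrder

variable (h : IsStableOrder F act H)
include h

theorem act_injective (σ : G) : Function.Injective (act σ) := by
  intro x y hxy
  by_contra hne
  obtain ⟨f, hf, hfxy⟩ := h.sep x y hne
  apply hfxy
  have h1 : σ • f x = σ • f y := by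
    rw [← h.equivariant f hf, ← h.equivariant f hf, hxy]
  exact MulAction.injective σ h1

theorem act_surjective (σ : G) : Function.Surjective (act σ) :=
  Finite.surjective_of_injective (h.act_injective σ)

theorem isTorsionFree : Module.IsTorsionFree R H := by
  apply Module.IsTorsionFree.of_smul_eq_zero
  intro r f hrf
  by_cases hr : r = 0
  · exact Or.inl hr
  · right
    apply Subtype.ext
    funext x
    have h1 : (r • f : H).1 x = 0 := by rw [hrf]; rfl
    have h2 : (r • f : H).1 x = algebraMap R K r * f.1 x := by
      change (r • f.1) x = _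
      rw [Pi.smul_apply, Algebra.smul_def]
    rw [h2] at h1
    rcases mul_eq_zero.mp h1 with h3 | h3
    · exact absurd ((injective_iff_map_eq_zero _).mp (algebraMap_injective_of_tower R F K) r h3) hr
    · exact h3

theorem free : Module.Free R H := by
  have := h.fg
  have := h.isTorsionFree
  exact Module.free_of_finite_type_torsion_free'

/-- **Descent**: an `R`-basis of `H` stays linearly independent over `K` (as functions). -/
theorem linearIndependent_coe {ι : Type*} (b : Module.Basis ι R H) :
    LinearIndependent K (fun i => ((b i : H) : M → K)) := by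
  classical
  have hR : LinearIndependent R (fun i => ((b i : H) : M → K)) := by
    have := b.linearIndependent.map' H.val.toLinearMap (by
      rw [LinearMap.ker_eq_bot]
      exact Subtype.val_injective)
    exact this
  have hF : LinearIndependent F (fun i => ((b i : H) : M → K)) :=
    (LinearIndependent.iff_fractionRing R F).mp hR
  rw [linearIndependent_iff']
  intro s c hc i hi
  refine eq_zero_of_sum_mul_eq_zero act h.act_surjective (fun i => ((b i : H) : M → K))
    (fun i σ x => h.equivariant _ (b i).2 σ x) ?_ s c ?_ i hi
  · intro s c hfix hrel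
    have hex : ∀ i ∈ s, ∃ q : F, algebraMap F K q = c i := fun i hi => h.fixed (c i) (hfix i hi)
    choose! q hq using hex
    have h0 : ∑ i ∈ s, q i • (fun i => ((b i : H) : M → K)) i = 0 := by
      funext x
      rw [Finset.sum_apply, Pi.zero_apply, ← hrel x]
      refine Finset.sum_congr rfl fun i hi => ?_
      rw [Pi.smul_apply, Algebra.smul_def, hq i hi]
    intro i hi
    rw [← hq i hi, linearIndependent_iff'.mp hF s q h0 i hi, map_zero]
  · intro x
    have := congrFun hc x
    rw [Finset.sum_apply] at this
    simpa [Pi.smul_apply, smul_eq_mul] using this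

/-- the value at `0` of a function of `H` lies in `R`. -/
theorem exists_algebraMap_eq_apply_zero (f : H) : ∃ r : R, algebraMap R K r = f.1 0 := by
  have hfix : ∀ σ : G, σ • f.1 0 = f.1 0 := by
    intro σ
    rw [← h.equivariant f.1 f.2 σ 0, h.act_zero]
  obtain ⟨q, hq⟩ := h.fixed _ hfix
  have := h.fg
  have hint : IsIntegral R (f.1 0) := (IsIntegral.of_finite R f).map (evPt H.val 0)
  rw [← hq] at hint
  have hq' : IsIntegral R q := (isIntegral_algebraMap_iff (algebraMap F K).injective).mp hint
  obtain ⟨r, hr⟩ := IsIntegrallyClosed.isIntegral_iff.mp hq'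
  exact ⟨r, by rw [IsScalarTower.algebraMap_apply R F K, hr, hq]⟩

/-- `H` is stable under the pull-back along multiplication by `n`. -/
theorem nsmul_pull_mem (n : ℕ) : ∀ f ∈ H, (fun x : M => f (n • x)) ∈ H := by
  induction n with
  | zero =>
    intro f hf
    obtain ⟨r, hr⟩ := h.exists_algebraMap_eq_apply_zero ⟨f, hf⟩
    have : (fun x : M => f (0 • x)) = algebraMap R (M → K) r := by
      funext x
      rw [zero_smul, Pi.algebraMap_apply, hr]
    rw [this]
    exact H.algebraMap_mem r
  | succ n ih =>
    intro f hf
    obtain ⟨m, a, b, hab⟩ := h.delta f hf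
    have : (fun x : M => f ((n + 1) • x))
        = ∑ i, (fun x : M => (a i : M → K) (n • x)) * (b i : M → K) := by
      funext x
      rw [succ_nsmul, hab, Finset.sum_apply]
      rfl
    rw [this]
    exact H.sum_mem fun i _ => H.mul_mem (ih _ (a i).2) (b i).2

/-- `H` is stable under the pull-back along the negation. -/
theorem neg_pull_mem (f : M → K) (hf : f ∈ H) : (fun x : M => f (-x)) ∈ H := by
  have hpos : 0 < Nat.card M := Nat.card_pos
  have : (fun x : M => f (-x)) = fun x : M => f ((Nat.card M - 1) • x) := by
    funext x
    congr 1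
    apply neg_eq_of_add_eq_zero_left
    rw [← succ_nsmul, Nat.sub_add_cancel hpos, card_nsmul_eq_zero']
  rw [this]
  exact h.nsmul_pull_mem _ f hf

/-- **`H` is a function model of a Hopf order on `M`.** -/
theorem isGroupOrder {ι : Type*} (b : Module.Basis ι R H) : IsGroupOrder H.val b where
  injRK := algebraMap_injective_of_tower R F K
  indep := h.linearIndependent_coe b
  delta := by
    intro f
    obtain ⟨m, a, b, hab⟩ := h.delta f.1 f.2
    refine ⟨∑ i, a i ⊗ₜ[R] b i, fun x y => ?_⟩
    rw [map_sum, Finset.sum_apply]
    simp only [boxProd_tmul]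
    exact (hab x y).symm
  zero := fun f => h.exists_algebraMap_eq_apply_zero f
  neg := fun f => ⟨⟨_, h.neg_pull_mem f.1 f.2⟩, fun _ => rfl⟩

/-- the rank of `H` is at most the order of `M`. -/
theorem finrank_le : Module.finrank R H ≤ Nat.card M := by
  classical
  have := h.fg
  have := h.free
  have := Fintype.ofFinite M
  let b := Module.Free.chooseBasis R H
  have h1 := (h.linearIndependent_coe b).fintype_card_le_finrank
  rw [Module.finrank_fintype_fun_eq_card] at h1
  rw [Module.finrank_eq_card_chooseBasisIndex, Nat.card_eq_fintype_card]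
  exact h1

/-- **N0, Hopf part.** A Galois-stable, Δ-stable, separating, finitely generated function order
`H ⊆ Map(M, K)` over a PID `R` is a finite free cocommutative Hopf algebra of rank `≤ #M` whose
comultiplication, counit and antipode are the pull-backs along `+`, `0`, `-`.  The underlying
`R`-algebra structure is DEFINITIONALLY the subalgebra one (`hopfAlgebra_toAlgebra`). -/
@[reducible] noncomputable def hopfAlgebra : HopfAlgebra R H :=
  (h.isGroupOrder (@Module.Free.chooseBasis R H _ _ _ h.free)).hopfAlgebra

theorem hopfAlgebra_toAlgebra : h.hopfAlgebra.toBialgebra.toAlgebra = H.algebra := rfl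

theorem isCocomm : @Coalgebra.IsCocomm R H _ _ _ h.hopfAlgebra.toCoalgebra :=
  (h.isGroupOrder (@Module.Free.chooseBasis R H _ _ _ h.free)).isCocomm

theorem flat : Module.Flat R H :=
  @Module.Flat.of_free R H _ _ _ h.free

/-- the comultiplication is the pull-back along `+` (box product form). -/
theorem boxProd_comul (f : H) (x y : M) :
    boxProd H.val H.val (@Coalgebra.comul R H _ _ _ h.hopfAlgebra.toCoalgebra.toCoalgebraStruct f)
      (x, y) = f.1 (x + y) :=
  (h.isGroupOrder (@Module.Free.chooseBasis R H _ _ _ h.free)).boxProd_comulAlg f x y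

/-- the comultiplication is the pull-back along `+` (`lift` form, as used by the convolution
product of `WithConv (H →ₐ[R] K)`). -/
theorem lift_comul (f : H) (x y : M) :
    Algebra.TensorProduct.lift (evPt H.val x) (evPt H.val y) (fun _ _ => Commute.all _ _)
      (@Coalgebra.comul R H _ _ _ h.hopfAlgebra.toCoalgebra.toCoalgebraStruct f) = f.1 (x + y) := by
  rw [← boxProd_apply_eq_lift]
  exact h.boxProd_comul f x y

/-- the counit is the evaluation at `0`. -/
theorem algebraMap_counit (f : H) :
    algebraMap R K (@Coalgebra.counit R H _ _ _ h.hopfAlgebra.toCoalgebra.toCoalgebraStruct f)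
      = f.1 0 :=
  (h.isGroupOrder (@Module.Free.chooseBasis R H _ _ _ h.free)).algebraMap_counitAlg f

/-- the antipode is the pull-back along `-`. -/
theorem antipode_apply (f : H) (x : M) :
    (@HopfAlgebra.antipode R H _ _ h.hopfAlgebra.toHopfAlgebraStruct f).1 x = f.1 (-x) :=
  (h.isGroupOrder (@Module.Free.chooseBasis R H _ _ _ h.free)).ev_antipodeAlg f x

end IsStableOrder

end Order

end Fermat.Agent.GH.N0
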