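/-
CELL-H node N0 HOPF-PACK, part 5 (helper5): the frozen frame of S19 / `IsFlatAt`
(`R = GaloisRep.ratLocalizedAt ℓ`, `F = ℚ`, `K = AlgebraicClosure ℚ`, `G = Gal(K/ℚ)`) is an instance
of the generic frame of `GH/N0/Order.lean`: INTERFACE-1 hypotheses `heq / hfg / hsep / hΔ` give
`IsStableOrder ℚ act H`.
-/
import Mathlib
import Fermat.Prelude.Def_GaloisRep_Flat
import Fermat.Agent.S28.RatLocal
import Fermat.Agent.GH.N0.Order

set_option autoImplicit false

namespace Fermat.Agent.GH.N0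

open GaloisRep

/-- The fixed field of the absolute Galois group of `ℚ` is `ℚ`. -/
theorem fixed_algebraicClosure_rat (c : AlgebraicClosure ℚ)
    (hc : ∀ σ : AlgebraicClosure ℚ ≃ₐ[ℚ] AlgebraicClosure ℚ, σ • c = c) :
    c ∈ (algebraMap ℚ (AlgebraicClosure ℚ)).range := by
  have : Algebra.IsAlgebraic ℚ (AlgebraicClosure ℚ) := AlgebraicClosure.isAlgebraic ℚ
  have : IsAlgClosure ℚ (AlgebraicClosure ℚ) := ⟨inferInstance, inferInstance⟩
  have : IsGalois ℚ (AlgebraicClosure ℚ) := IsAlgClosure.isGalois ℚ _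
  exact (InfiniteGalois.mem_range_algebraMap_iff_fixed c).mpr hc

/-- **INTERFACE-1 ⟹ `IsStableOrder`** in the frozen frame. -/
theorem isStableOrder_of_interface {ℓ : ℕ} [Fact ℓ.Prime] {M : Type*} [AddCommGroup M] [Finite M]
    (act : (AlgebraicClosure ℚ ≃ₐ[ℚ] AlgebraicClosure ℚ) → M → M) (hact0 : ∀ σ, act σ 0 = 0)
    (H : Subalgebra (ratLocalizedAt ℓ) (M → AlgebraicClosure ℚ))
    (heq : ∀ f ∈ H, ∀ σ x, f (act σ x) = σ (f x))
    (hfg : Module.Finite (ratLocalizedAt ℓ) H)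
    (hsep : ∀ x y : M, x ≠ y → ∃ f ∈ H, f x ≠ f y)
    (hΔ : ∀ f ∈ H, ∃ (n : ℕ) (a b : Fin n → H), ∀ x y,
      f (x + y) = ∑ i, (a i : M → AlgebraicClosure ℚ) x * (b i : M → AlgebraicClosure ℚ) y) :
    IsStableOrder ℚ act H where
  fixed := fixed_algebraicClosure_rat
  act_zero := hact0
  equivariant := heq
  fg := hfg
  sep := hsep
  delta := hΔ

end Fermat.Agent.GH.N0
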