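import Mathlib

/-!
# GATE-H / node N0, part (P3): points of a finite free bialgebra of functions

`R` a commutative ring, `K` a field which is an `R`-algebra, `M` a finite additive group, `A` a
commutative `R`-bialgebra, finite free over `R` of rank at most `#M`, with an `R`-algebra map
`ι : A → (M → K)` separating the points of `M`, and such that the comultiplication of `A` is
the transpose of the addition of `M`.  Then the `K`-points of `A` are exactly the evaluations at the
points of `M`, and convolution of points is addition in `M` (`points_equiv`).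

The surjectivity uses Dedekind's independence of characters: the algebra homomorphisms `A → K` are
`K`-linearly independent inside `Hom_R(A, K)`, a `K`-vector space of dimension `rank_R A ≤ #M`.
-/

set_option autoImplicit false

namespace Fermat.Agent.GH.N0

open TensorProduct

section points

variable {R K M A : Type*} [CommRing R] [Field K] [Algebra R K] [CommRing A] [Algebra R A]

/-- Evaluation at a point of `M`, as an algebra homomorphism on `A`. -/
noncomputable def evAt (ι : A →ₐ[R] (M → K)) (x : M) : A →ₐ[R] K :=
  (Pi.evalAlgHom R (fun _ : M => K) x).comp ι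

@[simp]
theorem evAt_apply (ι : A →ₐ[R] (M → K)) (x : M) (a : A) : evAt ι x a = ι a x := rfl

theorem evAt_injective (ι : A →ₐ[R] (M → K)) (hsep : ∀ x y : M, x ≠ y → ∃ a, ι a x ≠ ι a y) :
    Function.Injective (evAt ι) := by
  intro x y hxy
  by_contra hne
  obtain ⟨a, ha⟩ := hsep x y hne
  exact ha (by rw [← evAt_apply, ← evAt_apply, hxy])

/-- Dedekind: the algebra homomorphisms `A → K` are linearly independent over `K` in
`A →ₗ[R] K`. -/
theorem linearIndependent_algHom_toLinearMap :
    LinearIndependent K (fun f : A →ₐ[R] K => (f.toLinearMap : A →ₗ[R] K)) := by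
  have h1 : LinearIndependent K (fun f : A →* K => (f : A → K)) := linearIndependent_monoidHom A K
  have h2 : LinearIndependent K (fun f : A →ₐ[R] K => ((f : A →* K) : A → K)) :=
    h1.comp (fun f : A →ₐ[R] K => (f : A →* K)) (by
      intro f g hfg
      apply AlgHom.ext
      intro a
      exact DFunLike.congr_fun hfg a)
  -- the coercion `(A →ₗ[R] K) → (A → K)` is `K`-linear and injective
  let Θ : (A →ₗ[R] K) →ₗ[K] (A → K) :=
    { toFun := fun f => (f : A → K)
      map_add' := fun _ _ => rfl
      map_smul' := fun _ _ => rfl }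
  exact LinearIndependent.of_comp Θ h2

variable [Module.Free R A] [Module.Finite R A]

/-- There are at most `rank_R A` algebra homomorphisms `A → K`. -/
theorem finite_algHom : Finite (A →ₐ[R] K) := by
  have : Module.Finite K (A →ₗ[R] K) := Module.Finite.linearMap R K A K
  exact (linearIndependent_algHom_toLinearMap (R := R) (K := K) (A := A)).finite

theorem natCard_algHom_le : Nat.card (A →ₐ[R] K) ≤ Module.finrank R A := by
  have : Nontrivial R := (algebraMap R K).domain_nontrivial
  have : Module.Finite K (A →ₗ[R] K) := Module.Finite.linearMap R K A K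
  have hfin : Finite (A →ₐ[R] K) := finite_algHom
  have : Fintype (A →ₐ[R] K) := Fintype.ofFinite _
  have h := (linearIndependent_algHom_toLinearMap (R := R) (K := K) (A := A)).fintype_card_le_finrank
  rw [Module.finrank_linearMap, Module.finrank_self, mul_one] at h
  rw [Nat.card_eq_fintype_card]
  exact h

end points

section main

variable {R K M A : Type*} [CommRing R] [Field K] [Algebra R K] [AddCommGroup M] [Finite M]
  [CommRing A] [Bialgebra R A] [Module.Free R A] [Module.Finite R A]

/-- Every `K`-point of `A` is the evaluation at a unique point of `M`. -/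
theorem evAt_bijective (ι : A →ₐ[R] (M → K)) (hsep : ∀ x y : M, x ≠ y → ∃ a, ι a x ≠ ι a y)
    (hrank : Module.finrank R A ≤ Nat.card M) : Function.Bijective (evAt ι) := by
  have hfin : Finite (A →ₐ[R] K) := finite_algHom
  exact (evAt_injective ι hsep).bijective_of_nat_card_le
    ((natCard_algHom_le (R := R) (K := K) (A := A)).trans hrank)

/-- Convolution of evaluations is evaluation at the sum. -/
theorem toConv_evAt_mul (ι : A →ₐ[R] (M → K))
    (hΔ : ∀ (a : A) (x y : M),
      Algebra.TensorProduct.lift (evAt ι x) (evAt ι y) (fun _ _ => Commute.all _ _)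
        (Coalgebra.comul a) = ι a (x + y)) (x y : M) :
    WithConv.toConv (evAt ι x) * WithConv.toConv (evAt ι y) = WithConv.toConv (evAt ι (x + y)) := by
  apply WithConv.ext
  apply AlgHom.ext
  intro a
  have h := AlgHom.convMul_apply (WithConv.toConv (evAt ι x)) (WithConv.toConv (evAt ι y)) a
  rw [show (WithConv.toConv (evAt ι x) * WithConv.toConv (evAt ι y)).ofConv a =
    (WithConv.toConv (evAt ι x) * WithConv.toConv (evAt ι y)) a from rfl, h]
  exact hΔ a x y

/-- **Points of a finite free bialgebra of functions on `M`.** -/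
theorem points_equiv (ι : A →ₐ[R] (M → K)) (hsep : ∀ x y : M, x ≠ y → ∃ a, ι a x ≠ ι a y)
    (hrank : Module.finrank R A ≤ Nat.card M)
    (hΔ : ∀ (a : A) (x y : M),
      Algebra.TensorProduct.lift (evAt ι x) (evAt ι y) (fun _ _ => Commute.all _ _)
        (Coalgebra.comul a) = ι a (x + y)) :
    ∃ e : WithConv (A →ₐ[R] K) ≃ M,
      (∀ (f : WithConv (A →ₐ[R] K)) (a : A), f.ofConv a = ι a (e f)) ∧
      (∀ f g : WithConv (A →ₐ[R] K), e (f * g) = e f + e g) := by
  let e₀ : M ≃ (A →ₐ[R] K) := Equiv.ofBijective (evAt ι) (evAt_bijective ι hsep hrank)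
  let e : WithConv (A →ₐ[R] K) ≃ M := (WithConv.equiv _).trans e₀.symm
  have he : ∀ f : WithConv (A →ₐ[R] K), evAt ι (e f) = f.ofConv := by
    intro f
    change e₀ (e₀.symm f.ofConv) = f.ofConv
    exact e₀.apply_symm_apply _
  refine ⟨e, fun f a => ?_, fun f g => ?_⟩
  · rw [← he f]
    rfl
  · apply evAt_injective ι hsep
    rw [he]
    have hf : f = WithConv.toConv (evAt ι (e f)) := by
      apply WithConv.ext
      exact (he f).symm
    have hg : g = WithConv.toConv (evAt ι (e g)) := by
      apply WithConv.ext
      exact (he g).symm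
    rw [← WithConv.ofConv_toConv (evAt ι (e f + e g)), ← toConv_evAt_mul ι hΔ, ← hf, ← hg]

/-- The Galois clause: if `σ`-conjugation of functions corresponds to a map `act` on points,
the identification of points is equivariant. -/
theorem points_equiv_sigma (ι : A →ₐ[R] (M → K)) (hsep : ∀ x y : M, x ≠ y → ∃ a, ι a x ≠ ι a y)
    (e : WithConv (A →ₐ[R] K) ≃ M)
    (he : ∀ (f : WithConv (A →ₐ[R] K)) (a : A), f.ofConv a = ι a (e f))
    (σ : K → K) (act : M → M) (heq : ∀ (a : A) (x : M), ι a (act x) = σ (ι a x))
    (f g : WithConv (A →ₐ[R] K)) (hfg : ∀ a : A, g.ofConv a = σ (f.ofConv a)) :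
    e g = act (e f) := by
  by_contra hne
  obtain ⟨a, ha⟩ := hsep _ _ hne
  apply ha
  rw [← he g a, hfg a, he f a, heq]

end main

end Fermat.Agent.GH.N0
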