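import Mathlib
import Fermat.Prelude.Def_ModularCurve_ArithmeticGalois
import Fermat.Prelude.Def_GaloisRep_Flat
import Fermat.Agent.GH.N0.Points

/-!
# GATE-H / node N0, wrappers: from a bialgebra of functions to the frozen shapes

`flatShape_of_bialgebra`: a commutative Hopf algebra `A` over `ℤ_(ℓ)`, finite free of rank `≤ #M`,
cocommutative, with an algebra map to the functions `M → ℚ̄` separating points, comultiplication
transposing the addition of `M`, and Galois-equivariant, gives the existential statement shared by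
the frozen `S19` and `GaloisRepAdic.IsFlatAt`.  `s19Shape_of_bialgebra` and
`isFlatAtClause_of_bialgebra` are the two instantiations.
-/

set_option autoImplicit false

namespace Fermat.Agent.GH.N0

open ModularCurve

local notation "Kb" => AlgebraicClosure ℚ
local notation "GQ" => (AlgebraicClosure ℚ ≃ₐ[ℚ] AlgebraicClosure ℚ)

/-- The common shape of the frozen `S19` and `IsFlatAt`. -/
theorem flatShape_of_bialgebra (ℓ : ℕ) {M : Type} [AddCommGroup M] [Finite M] (act : GQ → M → M)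
    (A : Type) [CommRing A] [HopfAlgebra (GaloisRep.ratLocalizedAt ℓ) A]
    [Module.Free (GaloisRep.ratLocalizedAt ℓ) A] [Module.Finite (GaloisRep.ratLocalizedAt ℓ) A]
    [Coalgebra.IsCocomm (GaloisRep.ratLocalizedAt ℓ) A]
    (ι : A →ₐ[GaloisRep.ratLocalizedAt ℓ] (M → Kb))
    (hsep : ∀ x y : M, x ≠ y → ∃ a, ι a x ≠ ι a y)
    (hrank : Module.finrank (GaloisRep.ratLocalizedAt ℓ) A ≤ Nat.card M)
    (hΔ : ∀ (a : A) (x y : M),
      Algebra.TensorProduct.lift (evAt ι x) (evAt ι y) (fun _ _ => Commute.all _ _)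
        (Coalgebra.comul a) = ι a (x + y))
    (heq : ∀ (σ : GQ) (a : A) (x : M), ι a (act σ x) = σ (ι a x)) :
    ∃ (H : Type) (_ : CommRing H) (_ : HopfAlgebra (GaloisRep.ratLocalizedAt ℓ) H),
      Module.Finite (GaloisRep.ratLocalizedAt ℓ) H ∧ Module.Flat (GaloisRep.ratLocalizedAt ℓ) H ∧
      Coalgebra.IsCocomm (GaloisRep.ratLocalizedAt ℓ) H ∧
      ∃ e : WithConv (H →ₐ[GaloisRep.ratLocalizedAt ℓ] Kb) ≃ M,
        (∀ f g, e (f * g) = e f + e g) ∧
        ∀ (σ : GQ) (f g : WithConv (H →ₐ[GaloisRep.ratLocalizedAt ℓ] Kb)),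
          (∀ h : H, g h = σ (f h)) → e g = act σ (e f) := by
  obtain ⟨e, he, hadd⟩ := points_equiv ι hsep hrank hΔ
  refine ⟨A, inferInstance, inferInstance, inferInstance, inferInstance, inferInstance, e, hadd, ?_⟩
  intro σ f g hfg
  exact points_equiv_sigma ι hsep e he σ (act σ) (heq σ) f g hfg

/-- The frozen `S19` conclusion from a bialgebra of functions on `J₀(p)[ℓ^k]`. -/
theorem s19Shape_of_bialgebra (p : ℕ) [NeZero p] (ℓ : ℕ) (k : ℕ)
    [Finite ↥(Submodule.torsionBy ℤ (JZero p) ((ℓ : ℤ) ^ k))]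
    (A : Type) [CommRing A] [HopfAlgebra (GaloisRep.ratLocalizedAt ℓ) A]
    [Module.Free (GaloisRep.ratLocalizedAt ℓ) A] [Module.Finite (GaloisRep.ratLocalizedAt ℓ) A]
    [Coalgebra.IsCocomm (GaloisRep.ratLocalizedAt ℓ) A]
    (ι : A →ₐ[GaloisRep.ratLocalizedAt ℓ]
      (↥(Submodule.torsionBy ℤ (JZero p) ((ℓ : ℤ) ^ k)) → Kb))
    (hsep : ∀ x y : ↥(Submodule.torsionBy ℤ (JZero p) ((ℓ : ℤ) ^ k)), x ≠ y → ∃ a, ι a x ≠ ι a y)
    (hrank : Module.finrank (GaloisRep.ratLocalizedAt ℓ) A ≤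
      Nat.card ↥(Submodule.torsionBy ℤ (JZero p) ((ℓ : ℤ) ^ k)))
    (hΔ : ∀ (a : A) (x y : ↥(Submodule.torsionBy ℤ (JZero p) ((ℓ : ℤ) ^ k))),
      Algebra.TensorProduct.lift (evAt ι x) (evAt ι y) (fun _ _ => Commute.all _ _)
        (Coalgebra.comul a) = ι a (x + y))
    (heq : ∀ (σ : GQ) (a : A) (x y : ↥(Submodule.torsionBy ℤ (JZero p) ((ℓ : ℤ) ^ k))),
      (y : JZero p) = σ • (x : JZero p) → ι a y = σ (ι a x)) :
    ∃ (H : Type) (_ : CommRing H) (_ : HopfAlgebra (GaloisRep.ratLocalizedAt ℓ) H),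
      Module.Finite (GaloisRep.ratLocalizedAt ℓ) H ∧ Module.Flat (GaloisRep.ratLocalizedAt ℓ) H ∧
      Coalgebra.IsCocomm (GaloisRep.ratLocalizedAt ℓ) H ∧
      ∃ e : WithConv (H →ₐ[GaloisRep.ratLocalizedAt ℓ] AlgebraicClosure ℚ) ≃
          ↥(Submodule.torsionBy ℤ (JZero p) ((ℓ : ℤ) ^ k)),
        (∀ f g, e (f * g) = e f + e g) ∧
        ∀ (σ : AlgebraicClosure ℚ ≃ₐ[ℚ] AlgebraicClosure ℚ)
          (f g : WithConv (H →ₐ[GaloisRep.ratLocalizedAt ℓ] AlgebraicClosure ℚ)),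
          (∀ h : H, g h = σ (f h)) → ((e g : JZero p)) = σ • (e f : JZero p) := by
  -- the action on the torsion submodule
  have hmem : ∀ (σ : GQ) (x : ↥(Submodule.torsionBy ℤ (JZero p) ((ℓ : ℤ) ^ k))),
      σ • (x : JZero p) ∈ Submodule.torsionBy ℤ (JZero p) ((ℓ : ℤ) ^ k) := by
    intro σ x
    rw [Submodule.mem_torsionBy_iff]
    have hx := (Submodule.mem_torsionBy_iff _ _).mp x.2
    have h2 := map_zsmul (DistribSMul.toAddMonoidHom (JZero p) σ) ((ℓ : ℤ) ^ k) (x : JZero p)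
    simp only [DistribSMul.toAddMonoidHom_apply] at h2
    rw [← h2, hx, smul_zero]
  let act : GQ → ↥(Submodule.torsionBy ℤ (JZero p) ((ℓ : ℤ) ^ k)) →
      ↥(Submodule.torsionBy ℤ (JZero p) ((ℓ : ℤ) ^ k)) := fun σ x => ⟨σ • (x : JZero p), hmem σ x⟩
  obtain ⟨H, i1, i2, h1, h2, h3, e, hadd, hσ⟩ :=
    flatShape_of_bialgebra ℓ act A ι hsep hrank hΔ (fun σ a x => heq σ a x (act σ x) rfl)
  refine ⟨H, i1, i2, h1, h2, h3, e, hadd, ?_⟩
  intro σ f g hfg
  have := hσ σ f g hfg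
  rw [this]

/-- One clause (one ideal `I`) of the frozen `GaloisRepAdic.IsFlatAt`, from a bialgebra of functions
on `ρ.V ⧸ I • ⊤`. -/
theorem isFlatAtClause_of_bialgebra {A₀ : Type} [CommRing A₀] [IsLocalRing A₀]
    (ρ : GaloisRepAdic A₀) (ℓ : ℕ) (I : Ideal A₀)
    [Finite (ρ.V ⧸ (I • (⊤ : Submodule A₀ ρ.V)))]
    (A : Type) [CommRing A] [HopfAlgebra (GaloisRep.ratLocalizedAt ℓ) A]
    [Module.Free (GaloisRep.ratLocalizedAt ℓ) A] [Module.Finite (GaloisRep.ratLocalizedAt ℓ) A]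
    [Coalgebra.IsCocomm (GaloisRep.ratLocalizedAt ℓ) A]
    (ι : A →ₐ[GaloisRep.ratLocalizedAt ℓ] ((ρ.V ⧸ (I • (⊤ : Submodule A₀ ρ.V))) → Kb))
    (hsep : ∀ x y : ρ.V ⧸ (I • (⊤ : Submodule A₀ ρ.V)), x ≠ y → ∃ a, ι a x ≠ ι a y)
    (hrank : Module.finrank (GaloisRep.ratLocalizedAt ℓ) A ≤
      Nat.card (ρ.V ⧸ (I • (⊤ : Submodule A₀ ρ.V))))
    (hΔ : ∀ (a : A) (x y : ρ.V ⧸ (I • (⊤ : Submodule A₀ ρ.V))),
      Algebra.TensorProduct.lift (evAt ι x) (evAt ι y) (fun _ _ => Commute.all _ _)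
        (Coalgebra.comul a) = ι a (x + y))
    (heq : ∀ (σ : GQ) (a : A) (x : ρ.V ⧸ (I • (⊤ : Submodule A₀ ρ.V))),
      ι a (ρ.levelAction I σ x) = σ (ι a x)) :
    ∃ (H : Type) (_ : CommRing H) (_ : HopfAlgebra (GaloisRep.ratLocalizedAt ℓ) H),
      Module.Finite (GaloisRep.ratLocalizedAt ℓ) H ∧
      Module.Flat (GaloisRep.ratLocalizedAt ℓ) H ∧
      Coalgebra.IsCocomm (GaloisRep.ratLocalizedAt ℓ) H ∧
      ∃ e : WithConv (H →ₐ[GaloisRep.ratLocalizedAt ℓ] AlgebraicClosure ℚ) ≃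
          (ρ.V ⧸ (I • (⊤ : Submodule A₀ ρ.V))),
        (∀ f g : WithConv (H →ₐ[GaloisRep.ratLocalizedAt ℓ] AlgebraicClosure ℚ),
          e (f * g) = e f + e g) ∧
        ∀ (σ : AlgebraicClosure ℚ ≃ₐ[ℚ] AlgebraicClosure ℚ)
          (f g : WithConv (H →ₐ[GaloisRep.ratLocalizedAt ℓ] AlgebraicClosure ℚ)),
          (∀ h : H, g h = σ (f h)) → e g = ρ.levelAction I σ (e f) :=
  flatShape_of_bialgebra ℓ (fun σ x => ρ.levelAction I σ x) A ι hsep hrank hΔ heq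

/-- `ρ.V ⧸ I • ⊤` is finite when `A₀ ⧸ I` is. -/
theorem finite_levelQuot {A₀ : Type} [CommRing A₀] [IsLocalRing A₀]
    (ρ : GaloisRepAdic A₀) (I : Ideal A₀) (hI : Finite (A₀ ⧸ I)) :
    Finite (ρ.V ⧸ (I • (⊤ : Submodule A₀ ρ.V))) := by
  classical
  -- a finite generating family gives a surjection from `(A₀ ⧸ I)^n`
  obtain ⟨n, s, hs⟩ := Module.Finite.exists_fin (R := A₀) (M := ρ.V)
  let φ : (Fin n → A₀) →ₗ[A₀] (ρ.V ⧸ (I • (⊤ : Submodule A₀ ρ.V))) :=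
    (Submodule.mkQ _).comp (Fintype.linearCombination A₀ s)
  have hφsurj : Function.Surjective φ := by
    intro y
    obtain ⟨v, rfl⟩ := Submodule.mkQ_surjective _ y
    have hv : v ∈ Submodule.span A₀ (Set.range s) := by rw [hs]; trivial
    obtain ⟨c, rfl⟩ := (Submodule.mem_span_range_iff_exists_fun A₀).mp hv
    exact ⟨c, by simp [φ, Fintype.linearCombination_apply]⟩
  -- `φ` factors through `(A₀ ⧸ I)^n`
  let q : (Fin n → A₀) → (Fin n → A₀ ⧸ I) := fun c i => Ideal.Quotient.mk I (c i)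
  have hq : ∀ c c', q c = q c' → φ c = φ c' := by
    intro c c' h
    have hd : ∀ i, c i - c' i ∈ I := fun i => by
      have := congrFun h i
      exact Ideal.Quotient.eq.mp this
    have : φ (c - c') = 0 := by
      simp only [φ, LinearMap.comp_apply, Submodule.mkQ_apply, Submodule.Quotient.mk_eq_zero,
        Fintype.linearCombination_apply]
      refine Submodule.sum_mem _ fun i _ => ?_
      exact Submodule.smul_mem_smul (hd i) trivial
    rw [map_sub, sub_eq_zero] at this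
    exact this
  have hqsurj : Function.Surjective q := fun d =>
    ⟨fun i => (Ideal.Quotient.mk_surjective (d i)).choose,
      funext fun i => (Ideal.Quotient.mk_surjective (d i)).choose_spec⟩
  let ψ : (Fin n → A₀ ⧸ I) → (ρ.V ⧸ (I • (⊤ : Submodule A₀ ρ.V))) :=
    fun d => φ (hqsurj d).choose
  have hψ : Function.Surjective ψ := by
    intro y
    obtain ⟨c, rfl⟩ := hφsurj y
    exact ⟨q c, hq _ _ (hqsurj (q c)).choose_spec⟩
  exact Finite.of_surjective ψ hψ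

/-- `GaloisRepAdic.IsFlatAt` from a family of bialgebras of functions, one for each ideal of
finite index. -/
theorem isFlatAt_of_bialgebras {A₀ : Type} [CommRing A₀] [IsLocalRing A₀]
    (ρ : GaloisRepAdic A₀) (ℓ : ℕ) (hres : Finite (IsLocalRing.ResidueField A₀))
    (h : ∀ I : Ideal A₀, Finite (A₀ ⧸ I) →
      ∃ (A : Type) (_ : CommRing A) (_ : HopfAlgebra (GaloisRep.ratLocalizedAt ℓ) A)
        (_ : Module.Free (GaloisRep.ratLocalizedAt ℓ) A)
        (_ : Module.Finite (GaloisRep.ratLocalizedAt ℓ) A)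
        (_ : Coalgebra.IsCocomm (GaloisRep.ratLocalizedAt ℓ) A)
        (ι : A →ₐ[GaloisRep.ratLocalizedAt ℓ] ((ρ.V ⧸ (I • (⊤ : Submodule A₀ ρ.V))) → Kb)),
        (∀ x y : ρ.V ⧸ (I • (⊤ : Submodule A₀ ρ.V)), x ≠ y → ∃ a, ι a x ≠ ι a y) ∧
        Module.finrank (GaloisRep.ratLocalizedAt ℓ) A ≤
          Nat.card (ρ.V ⧸ (I • (⊤ : Submodule A₀ ρ.V))) ∧
        (∀ (a : A) (x y : ρ.V ⧸ (I • (⊤ : Submodule A₀ ρ.V))),
          Algebra.TensorProduct.lift (evAt ι x) (evAt ι y) (fun _ _ => Commute.all _ _)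
            (Coalgebra.comul a) = ι a (x + y)) ∧
        ∀ (σ : GQ) (a : A) (x : ρ.V ⧸ (I • (⊤ : Submodule A₀ ρ.V))),
          ι a (ρ.levelAction I σ x) = σ (ι a x)) :
    ρ.IsFlatAt ℓ := by
  refine ⟨hres, fun I hI => ?_⟩
  have := finite_levelQuot ρ I hI
  obtain ⟨A, i1, i2, i3, i4, i5, ι, hsep, hrank, hΔ, heq⟩ := h I hI
  exact isFlatAtClause_of_bialgebra ρ ℓ I A ι hsep hrank hΔ heq


end Fermat.Agent.GH.N0
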