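import Mathlib
import Fermat.Prelude.Def_ModularCurve_ArithmeticGalois
import Fermat.Prelude.Def_GaloisRep_Flat
import Fermat.Agent.S28.RatLocal
import Fermat.Agent.GH.N0.Order
import Fermat.Agent.GH.N0.OrderQb
import Fermat.Agent.GH.N0.Wrap

/-!
# GATE-H / node N0, final form in the frozen frame

`R := GaloisRep.ratLocalizedAt ℓ = ℤ_(ℓ)`, `K := ℚ̄`, `G_ℚ := ℚ̄ ≃ₐ[ℚ] ℚ̄`.  A `G_ℚ`-equivariant, finitely
generated, separating, Δ-stable `ℤ_(ℓ)`-subalgebra `H` of the functions `M → ℚ̄` on a finite commutative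
group `M` with maps `act σ : M → M` gives the existential statement shared by the frozen `S19` and
`GaloisRepAdic.IsFlatAt` (`flatShape_of_order`), with its two instantiations `s19Shape_of_order`
and `isFlatAtClause_of_order`.

Inputs: `IsStableOrder` and its Hopf algebra (`GH/N0/Order.lean`), `points_equiv`
(`GH/N0/Points.lean`), the wrappers of `GH/N0/Wrap.lean`, and `ℤ_(ℓ)` being a discrete valuation
ring with fraction field `ℚ` (`S28/RatLocal.lean`), and `fixed_algebraicClosure_rat`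
(`GH/N0/OrderQb.lean`).
-/

set_option autoImplicit false

namespace Fermat.Agent.GH.N0

open Fermat.Agent.S28

local notation "Kb" => AlgebraicClosure ℚ
local notation "GQ" => (AlgebraicClosure ℚ ≃ₐ[ℚ] AlgebraicClosure ℚ)

variable {ℓ : ℕ} {M : Type} [AddCommGroup M]

/-- A `G_ℚ`-equivariant, finitely generated, separating, Δ-stable `ℤ_(ℓ)`-algebra of functions on `M`
is a stable order in the sense of `GH/N0/Order.lean`. -/
theorem isStableOrder_of_order (act : GQ → M → M)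
    (H : Subalgebra (GaloisRep.ratLocalizedAt ℓ) (M → Kb))
    (hact0 : ∀ σ, act σ 0 = 0)
    (heq : ∀ f ∈ H, ∀ (σ : GQ) (x : M), f (act σ x) = σ (f x))
    (hfg : Module.Finite (GaloisRep.ratLocalizedAt ℓ) H)
    (hsep : ∀ x y : M, x ≠ y → ∃ f ∈ H, f x ≠ f y)
    (hΔ : ∀ f ∈ H, ∃ (n : ℕ) (a b : Fin n → H), ∀ x y,
      f (x + y) = ∑ i, (a i : M → Kb) x * (b i : M → Kb) y) :
    IsStableOrder ℚ act H where
  fixed := fixed_algebraicClosure_rat
  act_zero := hact0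
  equivariant := heq
  fg := hfg
  sep := hsep
  delta := hΔ

variable [Fact ℓ.Prime] [Finite M]

/-- **N0, final form.**  The common shape of the frozen `S19` and `IsFlatAt` from a Galois-stable,
finitely generated, separating, Δ-stable `ℤ_(ℓ)`-algebra of functions `M → ℚ̄`. -/
theorem flatShape_of_order (act : GQ → M → M)
    (H : Subalgebra (GaloisRep.ratLocalizedAt ℓ) (M → Kb))
    (hact0 : ∀ σ, act σ 0 = 0)
    (heq : ∀ f ∈ H, ∀ (σ : GQ) (x : M), f (act σ x) = σ (f x))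
    (hfg : Module.Finite (GaloisRep.ratLocalizedAt ℓ) H)
    (hsep : ∀ x y : M, x ≠ y → ∃ f ∈ H, f x ≠ f y)
    (hΔ : ∀ f ∈ H, ∃ (n : ℕ) (a b : Fin n → H), ∀ x y,
      f (x + y) = ∑ i, (a i : M → Kb) x * (b i : M → Kb) y) :
    ∃ (H' : Type) (_ : CommRing H') (_ : HopfAlgebra (GaloisRep.ratLocalizedAt ℓ) H'),
      Module.Finite (GaloisRep.ratLocalizedAt ℓ) H' ∧ Module.Flat (GaloisRep.ratLocalizedAt ℓ) H' ∧
      Coalgebra.IsCocomm (GaloisRep.ratLocalizedAt ℓ) H' ∧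
      ∃ e : WithConv (H' →ₐ[GaloisRep.ratLocalizedAt ℓ] Kb) ≃ M,
        (∀ f g, e (f * g) = e f + e g) ∧
        ∀ (σ : GQ) (f g : WithConv (H' →ₐ[GaloisRep.ratLocalizedAt ℓ] Kb)),
          (∀ h : H', g h = σ (f h)) → e g = act σ (e f) := by
  have h := isStableOrder_of_order act H hact0 heq hfg hsep hΔ
  let := h.hopfAlgebra
  have := h.free
  have := h.fg
  have := h.isCocomm
  refine flatShape_of_bialgebra ℓ act H H.val ?_ h.finrank_le (fun f x y => h.lift_comul f x y) ?_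
  · intro x y hxy
    obtain ⟨f, hf, hfxy⟩ := hsep x y hxy
    exact ⟨⟨f, hf⟩, hfxy⟩
  · intro σ f x
    exact heq f.1 f.2 σ x

open ModularCurve in
/-- **The frozen `S19` conclusion** from a Galois-stable, finitely generated, separating, Δ-stable
`ℤ_(ℓ)`-algebra of functions on `J₀(p)[ℓ^k]`. -/
theorem s19Shape_of_order (p : ℕ) [NeZero p] (k : ℕ)
    [Finite ↥(Submodule.torsionBy ℤ (JZero p) ((ℓ : ℤ) ^ k))]
    (H : Subalgebra (GaloisRep.ratLocalizedAt ℓ)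
      (↥(Submodule.torsionBy ℤ (JZero p) ((ℓ : ℤ) ^ k)) → Kb))
    (heq : ∀ f ∈ H, ∀ (σ : GQ) (x y : ↥(Submodule.torsionBy ℤ (JZero p) ((ℓ : ℤ) ^ k))),
      (y : JZero p) = σ • (x : JZero p) → f y = σ (f x))
    (hfg : Module.Finite (GaloisRep.ratLocalizedAt ℓ) H)
    (hsep : ∀ x y : ↥(Submodule.torsionBy ℤ (JZero p) ((ℓ : ℤ) ^ k)), x ≠ y → ∃ f ∈ H, f x ≠ f y)
    (hΔ : ∀ f ∈ H, ∃ (n : ℕ) (a b : Fin n → H), ∀ x y,
      f (x + y) = ∑ i, (a i : _ → Kb) x * (b i : _ → Kb) y) :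
    ∃ (H' : Type) (_ : CommRing H') (_ : HopfAlgebra (GaloisRep.ratLocalizedAt ℓ) H'),
      Module.Finite (GaloisRep.ratLocalizedAt ℓ) H' ∧ Module.Flat (GaloisRep.ratLocalizedAt ℓ) H' ∧
      Coalgebra.IsCocomm (GaloisRep.ratLocalizedAt ℓ) H' ∧
      ∃ e : WithConv (H' →ₐ[GaloisRep.ratLocalizedAt ℓ] AlgebraicClosure ℚ) ≃
          ↥(Submodule.torsionBy ℤ (JZero p) ((ℓ : ℤ) ^ k)),
        (∀ f g, e (f * g) = e f + e g) ∧
        ∀ (σ : AlgebraicClosure ℚ ≃ₐ[ℚ] AlgebraicClosure ℚ)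
          (f g : WithConv (H' →ₐ[GaloisRep.ratLocalizedAt ℓ] AlgebraicClosure ℚ)),
          (∀ h : H', g h = σ (f h)) → ((e g : JZero p)) = σ • (e f : JZero p) := by
  -- the action on the torsion submodule
  have hmem : ∀ (σ : GQ) (x : ↥(Submodule.torsionBy ℤ (JZero p) ((ℓ : ℤ) ^ k))),
      σ • (x : JZero p) ∈ Submodule.torsionBy ℤ (JZero p) ((ℓ : ℤ) ^ k) := by
    intro σ x
    rw [Submodule.mem_torsionBy_iff]
    have hx := (Submodule.mem_torsionBy_iff _ _).mp x.2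
    have h2 := map_zsmul (DistribSMul.toAddMonoidHom (JZero p) σ) ((ℓ : ℤ) ^ k) (x : JZero p)
    simp only [DistribSMul.toAddMonoidHom_apply] at h2
    rw [← h2, hx, smul_zero]
  let act : GQ → ↥(Submodule.torsionBy ℤ (JZero p) ((ℓ : ℤ) ^ k)) →
      ↥(Submodule.torsionBy ℤ (JZero p) ((ℓ : ℤ) ^ k)) := fun σ x => ⟨σ • (x : JZero p), hmem σ x⟩
  have hact0 : ∀ σ, act σ 0 = 0 := by
    intro σ
    apply Subtype.ext
    change σ • ((0 : ↥(Submodule.torsionBy ℤ (JZero p) ((ℓ : ℤ) ^ k))) : JZero p) = 0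
    rw [Submodule.coe_zero, smul_zero]
  obtain ⟨H', i1, i2, h1, h2, h3, e, hadd, hσ⟩ :=
    flatShape_of_order act H hact0 (fun f hf σ x => heq f hf σ x (act σ x) rfl) hfg hsep hΔ
  refine ⟨H', i1, i2, h1, h2, h3, e, hadd, ?_⟩
  intro σ f g hfg'
  have := hσ σ f g hfg'
  rw [this]

/-- One clause (one ideal `I`) of the frozen `GaloisRepAdic.IsFlatAt`, from a Galois-stable,
finitely generated, separating, Δ-stable `ℤ_(ℓ)`-algebra of functions on `ρ.V ⧸ I • ⊤`. -/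
theorem isFlatAtClause_of_order {A₀ : Type} [CommRing A₀] [IsLocalRing A₀]
    (ρ : GaloisRepAdic A₀) (I : Ideal A₀)
    [Finite (ρ.V ⧸ (I • (⊤ : Submodule A₀ ρ.V)))]
    (H : Subalgebra (GaloisRep.ratLocalizedAt ℓ) ((ρ.V ⧸ (I • (⊤ : Submodule A₀ ρ.V))) → Kb))
    (heq : ∀ f ∈ H, ∀ (σ : GQ) (x : ρ.V ⧸ (I • (⊤ : Submodule A₀ ρ.V))),
      f (ρ.levelAction I σ x) = σ (f x))
    (hfg : Module.Finite (GaloisRep.ratLocalizedAt ℓ) H)
    (hsep : ∀ x y : ρ.V ⧸ (I • (⊤ : Submodule A₀ ρ.V)), x ≠ y → ∃ f ∈ H, f x ≠ f y)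
    (hΔ : ∀ f ∈ H, ∃ (n : ℕ) (a b : Fin n → H), ∀ x y,
      f (x + y) = ∑ i, (a i : _ → Kb) x * (b i : _ → Kb) y) :
    ∃ (H' : Type) (_ : CommRing H') (_ : HopfAlgebra (GaloisRep.ratLocalizedAt ℓ) H'),
      Module.Finite (GaloisRep.ratLocalizedAt ℓ) H' ∧
      Module.Flat (GaloisRep.ratLocalizedAt ℓ) H' ∧
      Coalgebra.IsCocomm (GaloisRep.ratLocalizedAt ℓ) H' ∧
      ∃ e : WithConv (H' →ₐ[GaloisRep.ratLocalizedAt ℓ] AlgebraicClosure ℚ) ≃
          (ρ.V ⧸ (I • (⊤ : Submodule A₀ ρ.V))),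
        (∀ f g : WithConv (H' →ₐ[GaloisRep.ratLocalizedAt ℓ] AlgebraicClosure ℚ),
          e (f * g) = e f + e g) ∧
        ∀ (σ : AlgebraicClosure ℚ ≃ₐ[ℚ] AlgebraicClosure ℚ)
          (f g : WithConv (H' →ₐ[GaloisRep.ratLocalizedAt ℓ] AlgebraicClosure ℚ)),
          (∀ h : H', g h = σ (f h)) → e g = ρ.levelAction I σ (e f) :=
  flatShape_of_order (fun σ x => ρ.levelAction I σ x) H (fun _ => map_zero _) heq hfg hsep hΔ

omit [Finite M] in
/-- `GaloisRepAdic.IsFlatAt` from a family of orders, one for each ideal of finite index. -/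
theorem isFlatAt_of_orders {A₀ : Type} [CommRing A₀] [IsLocalRing A₀]
    (ρ : GaloisRepAdic A₀) (hres : Finite (IsLocalRing.ResidueField A₀))
    (h : ∀ I : Ideal A₀, Finite (A₀ ⧸ I) →
      ∃ H : Subalgebra (GaloisRep.ratLocalizedAt ℓ) ((ρ.V ⧸ (I • (⊤ : Submodule A₀ ρ.V))) → Kb),
        (∀ f ∈ H, ∀ (σ : GQ) (x : ρ.V ⧸ (I • (⊤ : Submodule A₀ ρ.V))),
          f (ρ.levelAction I σ x) = σ (f x)) ∧
        Module.Finite (GaloisRep.ratLocalizedAt ℓ) H ∧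
        (∀ x y : ρ.V ⧸ (I • (⊤ : Submodule A₀ ρ.V)), x ≠ y → ∃ f ∈ H, f x ≠ f y) ∧
        ∀ f ∈ H, ∃ (n : ℕ) (a b : Fin n → H), ∀ x y,
          f (x + y) = ∑ i, (a i : _ → Kb) x * (b i : _ → Kb) y) :
    ρ.IsFlatAt ℓ := by
  refine ⟨hres, fun I hI => ?_⟩
  have := finite_levelQuot ρ I hI
  obtain ⟨H, heq, hfg, hsep, hΔ⟩ := h I hI
  exact isFlatAtClause_of_order ρ I H heq hfg hsep hΔ

end Fermat.Agent.GH.N0
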