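import Mathlib
import Fermat.Prelude.Def_ModularCurve_ArithmeticGalois
import Fermat.Prelude.Def_GaloisRep_Flat
import Fermat.Agent.GH.N0.HopfOfOrder
import Fermat.Agent.GH.N0.Points
import Fermat.Agent.GH.N0.Wrap

/-!
# GATE-H / node N0: the points of a group order, and the frozen shapes from a group order

Glue between `IsGroupOrder` (`GH/N0/HopfOfOrder.lean`: a function model `ev : A → (M → K)` with a
basis, stable under the pull-backs along `+`, `0`, `-`, is a cocommutative Hopf algebra) and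
`points_equiv` (`GH/N0/Points.lean`: the `K`-points of a finite free bialgebra of functions on `M` are
the points of `M`).  The results `s19Shape_of_groupOrder` and `isFlatAtClause_of_groupOrder` are the
existential statements of the frozen `S19` and of `GaloisRepAdic.IsFlatAt`.
-/

set_option autoImplicit false

namespace Fermat.Agent.GH.N0

open scoped TensorProduct

section glue

variable {R K : Type*} [CommRing R] [Field K] [Algebra R K]
variable {A : Type*} [CommRing A] [Algebra R A]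
variable {M : Type*}
variable {ι : Type*}

/-- The two descriptions of "evaluate a tensor at a pair of points" agree. -/
theorem lift_evAt_eq_boxProd (ev : A →ₐ[R] (M → K)) (t : A ⊗[R] A) (x y : M) :
    Algebra.TensorProduct.lift (evAt ev x) (evAt ev y) (fun _ _ => Commute.all _ _) t
      = boxProd ev ev t (x, y) := by
  induction t using TensorProduct.induction_on with
  | zero => simp
  | tmul a b => simp [boxProd_tmul]
  | add s₁ s₂ h₁ h₂ => rw [map_add, map_add, Pi.add_apply, h₁, h₂]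

variable [AddCommGroup M] {ev : A →ₐ[R] (M → K)} {bA : Module.Basis ι R A}

/-- A group order on a finite group `M` has rank at most `#M`. -/
theorem IsGroupOrder.finrank_le [Finite M] (h : IsGroupOrder ev bA) :
    Module.finrank R A ≤ Nat.card M := by
  classical
  have hnt : Nontrivial R := (algebraMap R K).domain_nontrivial
  have : Fintype M := Fintype.ofFinite M
  have hfin : Finite ι := h.indep.finite
  have : Fintype ι := Fintype.ofFinite ι
  have h1 := h.indep.fintype_card_le_finrank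
  rw [Module.finrank_fintype_fun_eq_card] at h1
  rw [Module.finrank_eq_card_basis bA, Nat.card_eq_fintype_card]
  exact h1

/-- **The points of a group order**: for `M` finite and `ev` separating the points of `M`, the
`R`-algebra maps `A → K` are the evaluations at the points of `M`, and the convolution product is
the addition of `M`. -/
theorem IsGroupOrder.points_equiv [Finite M] (h : IsGroupOrder ev bA)
    (hsep : ∀ x y : M, x ≠ y → ∃ a, ev a x ≠ ev a y) :
    letI := h.hopfAlgebra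
    ∃ e : WithConv (A →ₐ[R] K) ≃ M,
      (∀ (f : WithConv (A →ₐ[R] K)) (a : A), f.ofConv a = ev a (e f)) ∧
      (∀ f g : WithConv (A →ₐ[R] K), e (f * g) = e f + e g) := by
  let := h.hopfAlgebra
  have hfin : Finite ι := h.indep.finite
  have : Module.Free R A := Module.Free.of_basis bA
  have : Module.Finite R A := Module.Finite.of_basis bA
  refine Fermat.Agent.GH.N0.points_equiv ev hsep h.finrank_le ?_
  intro a x y
  rw [lift_evAt_eq_boxProd]
  exact h.boxProd_comulAlg a x y

end glue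

section frozen

local notation "Kb" => AlgebraicClosure ℚ
local notation "GQ" => (AlgebraicClosure ℚ ≃ₐ[ℚ] AlgebraicClosure ℚ)

/-- The common shape of the frozen `S19` and `IsFlatAt` from a group order. -/
theorem flatShape_of_groupOrder (ℓ : ℕ) {M : Type} [AddCommGroup M] [Finite M] (act : GQ → M → M)
    (A : Type) [CommRing A] [Algebra (GaloisRep.ratLocalizedAt ℓ) A] {ι : Type}
    (bA : Module.Basis ι (GaloisRep.ratLocalizedAt ℓ) A)
    (ev : A →ₐ[GaloisRep.ratLocalizedAt ℓ] (M → Kb)) (h : IsGroupOrder ev bA)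
    (hsep : ∀ x y : M, x ≠ y → ∃ a, ev a x ≠ ev a y)
    (heq : ∀ (σ : GQ) (a : A) (x : M), ev a (act σ x) = σ (ev a x)) :
    ∃ (H : Type) (_ : CommRing H) (_ : HopfAlgebra (GaloisRep.ratLocalizedAt ℓ) H),
      Module.Finite (GaloisRep.ratLocalizedAt ℓ) H ∧ Module.Flat (GaloisRep.ratLocalizedAt ℓ) H ∧
      Coalgebra.IsCocomm (GaloisRep.ratLocalizedAt ℓ) H ∧
      ∃ e : WithConv (H →ₐ[GaloisRep.ratLocalizedAt ℓ] Kb) ≃ M,
        (∀ f g, e (f * g) = e f + e g) ∧
        ∀ (σ : GQ) (f g : WithConv (H →ₐ[GaloisRep.ratLocalizedAt ℓ] Kb)),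
          (∀ h : H, g h = σ (f h)) → e g = act σ (e f) := by
  let := h.hopfAlgebra
  have hfin : Finite ι := h.indep.finite
  have : Module.Free (GaloisRep.ratLocalizedAt ℓ) A := Module.Free.of_basis bA
  have : Module.Finite (GaloisRep.ratLocalizedAt ℓ) A := Module.Finite.of_basis bA
  have : Coalgebra.IsCocomm (GaloisRep.ratLocalizedAt ℓ) A := h.isCocomm
  refine flatShape_of_bialgebra ℓ act A ev hsep h.finrank_le ?_ heq
  intro a x y
  rw [lift_evAt_eq_boxProd]
  exact h.boxProd_comulAlg a x y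

open ModularCurve in
/-- The frozen `S19` conclusion from a group order on `J₀(p)[ℓ^k]`. -/
theorem s19Shape_of_groupOrder (p : ℕ) [NeZero p] (ℓ : ℕ) (k : ℕ)
    [Finite ↥(Submodule.torsionBy ℤ (JZero p) ((ℓ : ℤ) ^ k))]
    (A : Type) [CommRing A] [Algebra (GaloisRep.ratLocalizedAt ℓ) A] {ι : Type}
    (bA : Module.Basis ι (GaloisRep.ratLocalizedAt ℓ) A)
    (ev : A →ₐ[GaloisRep.ratLocalizedAt ℓ]
      (↥(Submodule.torsionBy ℤ (JZero p) ((ℓ : ℤ) ^ k)) → Kb))
    (h : IsGroupOrder ev bA)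
    (hsep : ∀ x y : ↥(Submodule.torsionBy ℤ (JZero p) ((ℓ : ℤ) ^ k)), x ≠ y → ∃ a, ev a x ≠ ev a y)
    (heq : ∀ (σ : GQ) (a : A) (x y : ↥(Submodule.torsionBy ℤ (JZero p) ((ℓ : ℤ) ^ k))),
      (y : JZero p) = σ • (x : JZero p) → ev a y = σ (ev a x)) :
    ∃ (H : Type) (_ : CommRing H) (_ : HopfAlgebra (GaloisRep.ratLocalizedAt ℓ) H),
      Module.Finite (GaloisRep.ratLocalizedAt ℓ) H ∧ Module.Flat (GaloisRep.ratLocalizedAt ℓ) H ∧
      Coalgebra.IsCocomm (GaloisRep.ratLocalizedAt ℓ) H ∧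
      ∃ e : WithConv (H →ₐ[GaloisRep.ratLocalizedAt ℓ] AlgebraicClosure ℚ) ≃
          ↥(Submodule.torsionBy ℤ (JZero p) ((ℓ : ℤ) ^ k)),
        (∀ f g, e (f * g) = e f + e g) ∧
        ∀ (σ : AlgebraicClosure ℚ ≃ₐ[ℚ] AlgebraicClosure ℚ)
          (f g : WithConv (H →ₐ[GaloisRep.ratLocalizedAt ℓ] AlgebraicClosure ℚ)),
          (∀ h : H, g h = σ (f h)) → ((e g : JZero p)) = σ • (e f : JZero p) := by
  let := h.hopfAlgebra
  have hfin : Finite ι := h.indep.finite
  have : Module.Free (GaloisRep.ratLocalizedAt ℓ) A := Module.Free.of_basis bA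
  have : Module.Finite (GaloisRep.ratLocalizedAt ℓ) A := Module.Finite.of_basis bA
  have : Coalgebra.IsCocomm (GaloisRep.ratLocalizedAt ℓ) A := h.isCocomm
  refine s19Shape_of_bialgebra p ℓ k A ev hsep h.finrank_le ?_ heq
  intro a x y
  rw [lift_evAt_eq_boxProd]
  exact h.boxProd_comulAlg a x y

/-- One clause (one ideal `I`) of the frozen `GaloisRepAdic.IsFlatAt`, from a group order on
`ρ.V ⧸ I • ⊤`. -/
theorem isFlatAtClause_of_groupOrder {A₀ : Type} [CommRing A₀] [IsLocalRing A₀]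
    (ρ : GaloisRepAdic A₀) (ℓ : ℕ) (I : Ideal A₀)
    [Finite (ρ.V ⧸ (I • (⊤ : Submodule A₀ ρ.V)))]
    (A : Type) [CommRing A] [Algebra (GaloisRep.ratLocalizedAt ℓ) A] {ι : Type}
    (bA : Module.Basis ι (GaloisRep.ratLocalizedAt ℓ) A)
    (ev : A →ₐ[GaloisRep.ratLocalizedAt ℓ] ((ρ.V ⧸ (I • (⊤ : Submodule A₀ ρ.V))) → Kb))
    (h : IsGroupOrder ev bA)
    (hsep : ∀ x y : ρ.V ⧸ (I • (⊤ : Submodule A₀ ρ.V)), x ≠ y → ∃ a, ev a x ≠ ev a y)
    (heq : ∀ (σ : GQ) (a : A) (x : ρ.V ⧸ (I • (⊤ : Submodule A₀ ρ.V))),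
      ev a (ρ.levelAction I σ x) = σ (ev a x)) :
    ∃ (H : Type) (_ : CommRing H) (_ : HopfAlgebra (GaloisRep.ratLocalizedAt ℓ) H),
      Module.Finite (GaloisRep.ratLocalizedAt ℓ) H ∧
      Module.Flat (GaloisRep.ratLocalizedAt ℓ) H ∧
      Coalgebra.IsCocomm (GaloisRep.ratLocalizedAt ℓ) H ∧
      ∃ e : WithConv (H →ₐ[GaloisRep.ratLocalizedAt ℓ] AlgebraicClosure ℚ) ≃
          (ρ.V ⧸ (I • (⊤ : Submodule A₀ ρ.V))),
        (∀ f g : WithConv (H →ₐ[GaloisRep.ratLocalizedAt ℓ] AlgebraicClosure ℚ),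
          e (f * g) = e f + e g) ∧
        ∀ (σ : AlgebraicClosure ℚ ≃ₐ[ℚ] AlgebraicClosure ℚ)
          (f g : WithConv (H →ₐ[GaloisRep.ratLocalizedAt ℓ] AlgebraicClosure ℚ)),
          (∀ h : H, g h = σ (f h)) → e g = ρ.levelAction I σ (e f) :=
  flatShape_of_groupOrder ℓ (fun σ x => ρ.levelAction I σ x) A bA ev h hsep heq

end frozen

end Fermat.Agent.GH.N0
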